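/-
P-S58, row 1093 (S58-WIREM), helper33: `Wire35MatchStatement` from the frozen statement S35, the
Hecke character (EIG) and the `lam`-adic embedding of `ℤ[θ]`, `θ = a_{ℓ₀}(g)` (EMB).

* `wire35Match (h35 : S35Statement) (hE : EigenCharStatement) (hEmb : PadicEmbeddingStatement) :
  Wire35MatchStatement`.
-/
import Fermat.Agent.H51.S58.Interfaces
import Fermat.Agent.H50.EsC.Eigen

set_option autoImplicit false
set_option linter.style.haveILetI false

open Polynomial WeierstrassCurve WeierstrassCurve.Affine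

namespace Fermat.Agent.H33.S58

open Fermat.Agent.H51.S58

/-- The residue field of `ℤ_[p]` is finite. -/
theorem finite_residueField_padicInt (p : ℕ) [Fact p.Prime] :
    Finite (IsLocalRing.ResidueField ℤ_[p]) :=
  Finite.of_equiv (ZMod p) PadicInt.residueField.symm.toEquiv

/-- `p` lies in the maximal ideal of `ℤ_[p]`. -/
theorem natCast_mem_maximalIdeal_padicInt (p : ℕ) [Fact p.Prime] :
    (p : ℤ_[p]) ∈ IsLocalRing.maximalIdeal ℤ_[p] := by
  rw [PadicInt.maximalIdeal_eq_span_p]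
  exact Ideal.mem_span_singleton_self _

/-- A local homomorphism maps the natural numbers of the maximal ideal into the maximal ideal. -/
theorem natCast_mem_maximalIdeal_of_isLocalHom {O' O'' : Type} [CommRing O'] [CommRing O'']
    [IsLocalRing O'] [IsLocalRing O''] [Algebra O' O''] [IsLocalHom (algebraMap O' O'')] {n : ℕ}
    (h : (n : O') ∈ IsLocalRing.maximalIdeal O') : (n : O'') ∈ IsLocalRing.maximalIdeal O'' := by
  rw [IsLocalRing.mem_maximalIdeal, mem_nonunits_iff] at h ⊢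
  intro hu
  apply h
  have h1 : IsUnit (algebraMap O' O'' (n : O')) := by rwa [map_natCast]
  exact isUnit_of_map_unit (algebraMap O' O'') _ h1

/-- **WIRE35M** (row 1093). -/
theorem wire35Match (h35 : S35Statement) (hE : EigenCharStatement)
    (hEmb : PadicEmbeddingStatement) : Wire35MatchStatement := by
  intro W N M _ g hMD ℓ₀ hℓ₀ hℓ₀N hℓ₀M
  have hg : g.IsNormalizedEigenform := hMD.newform.isNormalizedEigenform
  have hθint : IsIntegral ℤ (ModularFormClass.qCoeff g ℓ₀) :=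
    Fermat.Agent.H50.isIntegral_qCoeff_prime g hg hℓ₀ hℓ₀M
  obtain ⟨lam, hlam, hlamF, ι0, hι0⟩ :=
    hEmb (ModularFormClass.qCoeff g ℓ₀) hθint (insert 2 (insert ℓ₀ N.primeFactors))
  haveI := hlam
  have hlam2 : lam ≠ 2 := fun h => hlamF (by rw [h]; exact Finset.mem_insert_self _ _)
  have hlamℓ₀ : lam ≠ ℓ₀ := fun h =>
    hlamF (by rw [h]; exact Finset.mem_insert_of_mem (Finset.mem_insert_self _ _))
  have hlamN : lam ∉ N.primeFactors := fun h =>
    hlamF (Finset.mem_insert_of_mem (Finset.mem_insert_of_mem h))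
  -- the set `S`
  have hMS : ∀ q : ℕ, q.Prime → q ∣ M → q ∈ insert lam (N.primeFactors.erase ℓ₀) := by
    intro q hq hqM
    refine Finset.mem_insert_of_mem (Finset.mem_erase.mpr ⟨?_, ?_⟩)
    · rintro rfl
      exact hℓ₀M hqM
    · exact Nat.mem_primeFactors.mpr ⟨hq, hqM.trans hMD.dvd, hMD.ne_zero⟩
  obtain ⟨chig, hchig, hrange⟩ := hE M g hg (insert lam (N.primeFactors.erase ℓ₀)) hMS
  have hnotS : ∀ ℓ : ℕ, ℓ.Prime → ℓ ∉ insert lam (N.primeFactors.erase ℓ₀) →
      ℓ = ℓ₀ ∨ ¬ ℓ ∣ N := by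
    intro ℓ hℓ hℓS
    by_cases h : ℓ = ℓ₀
    · exact Or.inl h
    · right
      intro hℓN
      exact hℓS (Finset.mem_insert_of_mem (Finset.mem_erase.mpr
        ⟨h, Nat.mem_primeFactors.mpr ⟨hℓ, hℓN, hMD.ne_zero⟩⟩))
  have hcoeffB : ∀ ℓ : ℕ, ℓ.Prime → ¬ ℓ ∣ M → ℓ ∉ insert lam (N.primeFactors.erase ℓ₀) →
      ModularFormClass.qCoeff g ℓ ∈ Subring.closure ({ModularFormClass.qCoeff g ℓ₀} : Set ℂ) := by
    intro ℓ hℓ _ hℓS
    rcases hnotS ℓ hℓ hℓS with rfl | hℓN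
    · exact Subring.subset_closure (Set.mem_singleton _)
    · rw [hMD.coeff ℓ hℓ hℓN]
      exact intCast_mem _ _
  have hrB : chig.range ≤ Subring.closure ({ModularFormClass.qCoeff g ℓ₀} : Set ℂ) :=
    hrange _ hcoeffB
  -- the embedding of the range
  have key : ∀ (ℓ : ℕ) (hℓ : ℓ.Prime) (hℓM : ¬ ℓ ∣ M)
      (hℓS : ℓ ∉ (↑(insert lam (N.primeFactors.erase ℓ₀)) : Set ℕ))
      (b : Subring.closure ({ModularFormClass.qCoeff g ℓ₀} : Set ℂ)),
      (b : ℂ) = ModularFormClass.qCoeff g ℓ →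
      ((ι0.comp (Subring.inclusion hrB)).comp chig.rangeRestrict)
        (CuspForm.heckeAlgebra.T hℓ hℓM hℓS) = ι0 b := by
    intro ℓ hℓ hℓM hℓS b hb
    show ι0 (Subring.inclusion hrB (chig.rangeRestrict _)) = ι0 b
    congr 1
    apply Subtype.ext
    show chig _ = (b : ℂ)
    rw [hchig ℓ hℓ hℓM hℓS, hb]
  have hlamO' : (lam : ℤ_[lam]) ∈ IsLocalRing.maximalIdeal ℤ_[lam] :=
    natCast_mem_maximalIdeal_padicInt lam
  haveI : Finite (IsLocalRing.ResidueField ℤ_[lam]) := finite_residueField_padicInt lam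
  obtain ⟨O'', i1, i2, i3, i4, i5, i6, i7, i8, i9, hinj, ρ, hFrob, -⟩ :=
    h35 (M := M) (g := g) hMD.newform lam (insert lam (N.primeFactors.erase ℓ₀)) ℤ_[lam] hlamO'
      chig hchig (ι0.comp (Subring.inclusion hrB)) (Finset.mem_insert_self _ _) hMS
  refine ⟨lam, hlam, hlam2, hlamℓ₀, O'', i1, i2, i3, i6,
    natCast_mem_maximalIdeal_of_isLocalHom hlamO', ρ, ?_,
    algebraMap ℤ_[lam] O'' (ι0 ⟨ModularFormClass.qCoeff g ℓ₀,
      Subring.subset_closure (Set.mem_singleton _)⟩), ?_, ?_⟩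
  · -- the Frobenius condition away from `N` and `lam`
    intro ℓ hℓ hℓS A hA σ hσ
    have hℓlam : ℓ ≠ lam := fun h => hℓS (by rw [h]; exact Finset.mem_insert_self _ _)
    have hℓN : ¬ ℓ ∣ N := fun h =>
      hℓS (Finset.mem_insert_of_mem (Nat.mem_primeFactors.mpr ⟨hℓ, h, hMD.ne_zero⟩))
    have hℓM : ¬ ℓ ∣ M := fun h => hℓN (h.trans hMD.dvd)
    have hℓS' : ℓ ∉ (↑(insert lam (N.primeFactors.erase ℓ₀)) : Set ℕ) := by
      intro h
      rcases Finset.mem_insert.mp (Finset.mem_coe.mp h) with h1 | h1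
      · exact hℓlam h1
      · exact hℓN (Nat.dvd_of_mem_primeFactors (Finset.mem_of_mem_erase h1))
    rw [hFrob ℓ hℓ hℓM hℓS' A hA σ hσ,
      key ℓ hℓ hℓM hℓS' ((W.apOfModel ℓ : ℤ) : Subring.closure _)
        (by rw [Subring.coe_intCast]; exact (hMD.coeff ℓ hℓ hℓN).symm),
      map_intCast, map_intCast]
  · -- the Frobenius at `ℓ₀`
    intro A hA σ hσ
    have hℓS' : ℓ₀ ∉ (↑(insert lam (N.primeFactors.erase ℓ₀)) : Set ℕ) := by
      intro h
      rcases Finset.mem_insert.mp (Finset.mem_coe.mp h) with h1 | h1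
      · exact hlamℓ₀ h1.symm
      · exact (Finset.notMem_erase ℓ₀ _) h1
    rw [hFrob ℓ₀ hℓ₀ hℓ₀M hℓS' A hA σ hσ,
      key ℓ₀ hℓ₀ hℓ₀M hℓS' ⟨ModularFormClass.qCoeff g ℓ₀,
        Subring.subset_closure (Set.mem_singleton _)⟩ rfl]
  · -- matching
    intro a ha
    apply hι0 a
    apply hinj
    rw [ha, map_intCast]

end Fermat.Agent.H33.S58
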